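import Fermat.Agent.DR.Final

/-!
# S15 / LOC-N, file 4: `DRGeom` at a neat level for ALL exponents `m` prime to `q` (same proof as `DR.Final.drGeomAll_of_neat`).
-/

set_option autoImplicit false
set_option linter.unusedSectionVars false
set_option linter.style.haveILetI false

noncomputable section

namespace Fermat.Agent.S15.LocN

open ModularCurve AlgebraicCurve Fermat.Agent.S24 Fermat.Agent.GAL Fermat.Agent.GAL.RED
  Fermat.Agent.Lib.RR Fermat.Agent.DR Fermat.Agent.DR.Gal Fermat.Agent.GAL.Igusa Fermat.Agent.DR.Final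

theorem drGeom_of_neat (M q : ℕ) [NeZero M] [NeZero q] (hq : q.Prime) (hqM : ¬ q ∣ M)
    (hneat : 4 ∣ M ∨ 9 ∣ M) (A : ValuationSubring Kbar) (hA : A.LiesOverPrime q) [Fact q.Prime]
    [CharP (IsLocalRing.ResidueField ↥A) q] [PerfectRing (IsLocalRing.ResidueField ↥A) q]
    {m : ℕ} (hm : ¬ q ∣ m) : DRGeom A M q hq hqM hA m := by
  haveI : Lib.RR.IsFF Kbar (FN (M * q)) := Fermat.Agent.GAL.Desc.isFF_FF_Kbar (M * q)
  haveI : Lib.RR.IsFF Kbar (FN M) := Fermat.Agent.GAL.Desc.isFF_FF_Kbar M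
  haveI := Igusa.isAlgClosed_residueField A
  have hM := Conc.natCast_M_ne_zero A M q hq hqM hA
  haveI := Igusa.isFF_E (IsLocalRing.ResidueField ↥A) M hM
  have hg : Conc.GoodRed A M := Conc.goodRed_of_neat A M hM Igusa.cuspUpper Igusa.cuspLower hneat
  exact drGeom_of_pairHyp A M q hq hqM hA (fun _ => rfl) (fun _ => rfl)
    (Conc.pairHyp A M q hq hqM hA hg) (fun σ _ => Conc.gal_xC M q σ) (Conc.W_xC M q hq hqM)
    (Conc.FrE_sig _ M q) (natCast_residueField_ne_zero A hq hA hm)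

end Fermat.Agent.S15.LocN
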