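import Fermat.Agent.S15.LocN.Iso
import Fermat.Agent.S15.LocN.Geom
import Fermat.Agent.DR.Gal.Level
import Fermat.Agent.S17.Unr.Infty
import Fermat.Agent.GAL.S31.RootsOfUnity
import Fermat.Agent.Lib.Frobenius

/-!
# S15 / LOC-N = block P of report 339: the toric part `Ktor N A m ≤ J₀(N)[m]` at a place `A ∣ N`

`N` an odd prime, `A` a place of `ℚ̄` over `N`.  `Ktor N A m` = the classes killed by `m` whose pull-back to the neat level `4 N` is toric at
`A` (has representative functions reducing to `1` on both components of the special fibre).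

OUTPUT (all the S15 core needs at `N`):
* `Ktor_nsmul`       : `m • x = 0` on `Ktor N A m`;
* `kummer_mem`       : `σ ∈ I_A`, `σ (m y) = m y` ⟹ `σ y - y ∈ Ktor N A m`   (Greenberg condition for all Kummer cocycles; `(σ - 1) J[m] ⊆ Ktor`);
* `weil_pow_eq_one`  : `e_m (x, y) ^ e0 N = 1` for `x y ∈ Ktor N A m`, `(m, N) = 1`;  `e0 N = [F(4N) : F(N)] * (N - 1) ≠ 0` does not depend on `m`, `A`.
-/

set_option autoImplicit false
set_option linter.unusedSectionVars false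
set_option linter.style.haveILetI false

noncomputable section

namespace Fermat.Agent.S15.LocN

open AlgebraicCurve ModularCurve Fermat.Agent.S24 Fermat.Agent.GAL Fermat.Agent.GAL.RED
  Fermat.Agent.Lib.RR Fermat.Agent.S19.Weil Fermat.Agent.DR Fermat.Agent.DR.Gal

instance instIsFF_FN (N : ℕ) [NeZero N] : Lib.RR.IsFF Kbar (FN N) :=
  Fermat.Agent.GAL.Desc.isFF_FF_Kbar N

variable (N : ℕ) [NeZero N]

/-- The inclusion `F(N) ⊆ F(4 N)`. -/
def iota : FN N →+* FN (4 * N) := (lvl (N := N) (N' := 4 * N) (Dvd.intro_left 4 rfl)).toRingHom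

theorem coe_iota (x : FN N) : ((iota N x : FN (4 * N)) : LaurentSeries Kbar) = x :=
  coe_lvl _ x

open Classical in
/-- **The toric part of `J₀(N)[m]` at the place `A ∣ N`.** -/
def Ktor (A : ValuationSubring Kbar) (m : ℕ) : AddSubgroup (JZero N) :=
  if h : N.Prime ∧ ¬ N ∣ 4 ∧ A.LiesOverPrime N then
    KoneL (iota N) (Conc.R1 A 4 N h.1 h.2.1 h.2.2) m ⊓ KoneL (iota N) (Conc.R2 A 4 N h.1 h.2.1 h.2.2) m
  else ⊥

/-- The exponent of isotropy. -/
def e0 : ℕ := finrankAlong Kbar (lvl (N := N) (N' := 4 * N) (Dvd.intro_left 4 rfl)) * (N - 1)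

variable {N}

theorem not_dvd_four (hN : N.Prime) (hN2 : N ≠ 2) : ¬ N ∣ 4 := by
  intro h
  have h2 : N ∣ 2 := by
    have : N ∣ 2 * 2 := by simpa using h
    rcases (Nat.Prime.dvd_mul hN).1 this with h | h <;> exact h
  exact hN2 ((Nat.prime_dvd_prime_iff_eq hN Nat.prime_two).1 h2)

theorem Ktor_eq (hN : N.Prime) (hN2 : N ≠ 2) {A : ValuationSubring Kbar} (hA : A.LiesOverPrime N)
    (m : ℕ) : Ktor N A m = KoneL (iota N) (Conc.R1 A 4 N hN (not_dvd_four hN hN2) hA) m ⊓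
      KoneL (iota N) (Conc.R2 A 4 N hN (not_dvd_four hN hN2) hA) m := by
  rw [Ktor, dif_pos ⟨hN, not_dvd_four hN hN2, hA⟩]

theorem e0_ne_zero (hN : N.Prime) : e0 N ≠ 0 :=
  mul_ne_zero (finrankAlong_ne_zero _ (finiteAlong_lvl _)) (Nat.sub_ne_zero_of_lt hN.one_lt)

theorem Ktor_le_torsion (A : ValuationSubring Kbar) (m : ℕ) :
    Ktor N A m ≤ Pic0.torsion Kbar (FN N) m := by
  unfold Ktor
  split_ifs with h
  · exact inf_le_left.trans (KoneL_le_torsion _ _ _)
  · exact bot_le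

theorem Ktor_nsmul {A : ValuationSubring Kbar} {m : ℕ} {x : JZero N} (hx : x ∈ Ktor N A m) :
    m • x = 0 := by
  have := Pic0.mem_torsion.1 (Ktor_le_torsion A m hx)
  rwa [natCast_zsmul] at this

/-- the Galois actions at the levels `N` and `4 N` are compatible. -/
theorem gal_iota (σ : GQ) (f : FN N) : gal (4 * N) σ • iota N f = iota N (gal N σ • f) :=
  (lvl_arithmeticRingAut _ σ f).symm

/-- **Kummer cocycles satisfy the Greenberg condition at `N`.** -/
theorem kummer_mem (hN : N.Prime) (hN2 : N ≠ 2) {A : ValuationSubring Kbar}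
    (hA : A.LiesOverPrime N) {m : ℕ} (hm : 0 < m) {σ : GQ} (hσ : σ ∈ A.inertiaSubgroupIn ℚ)
    (y : JZero N) (hy : σ • (m • y) = m • y) : σ • y - y ∈ Ktor N A m := by
  rw [Ktor_eq hN hN2 hA]
  have h4 := not_dvd_four hN hN2
  exact ⟨kummer_mem_KoneL (iota N) _ hm (Conc.R1_scale A 4 N hN h4 hA) (gal N σ) (gal (4 * N) σ)
      (gal_iota σ) (compat_R1_of_inertia A 4 N hN h4 hA σ hσ) (S17.Unr.oo N) (S17.Unr.smul_oo N σ) y hy,
    kummer_mem_KoneL (iota N) _ hm (Conc.R2_scale A 4 N hN h4 hA) (gal N σ) (gal (4 * N) σ)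
      (gal_iota σ) (compat_R2_of_inertia A 4 N hN h4 hA σ hσ) (S17.Unr.oo N) (S17.Unr.smul_oo N σ) y hy⟩

/-- in particular `(σ - 1) J[m] ⊆ Ktor`. -/
theorem smul_sub_mem (hN : N.Prime) (hN2 : N ≠ 2) {A : ValuationSubring Kbar}
    (hA : A.LiesOverPrime N) {m : ℕ} (hm : 0 < m) {σ : GQ} (hσ : σ ∈ A.inertiaSubgroupIn ℚ)
    (y : JZero N) (hy : m • y = 0) : σ • y - y ∈ Ktor N A m :=
  kummer_mem hN hN2 hA hm hσ y (by rw [hy]; exact smul_zero (A := JZero N) σ)

/-- **The toric part is almost isotropic for the Weil pairing.** -/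
theorem weil_pow_eq_one (hN : N.Prime) (hN2 : N ≠ 2) {A : ValuationSubring Kbar}
    (hA : A.LiesOverPrime N) {m : ℕ} (hm : Nat.Coprime m N) {x y : JZero N}
    (hx : x ∈ Ktor N A m) (hy : y ∈ Ktor N A m) : weil m x y ^ e0 N = 1 := by
  have h4 := not_dvd_four hN hN2
  rw [Ktor_eq hN hN2 hA] at hx hy
  haveI : Fact N.Prime := ⟨hN⟩
  haveI := Hecke.charP_residueField A hN hA
  haveI := perfectRing_residueField N A
  have hNm : ¬ N ∣ m := fun h => hN.one_lt.ne' (Nat.Coprime.eq_one_of_dvd hm.symm h)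
  have hm0 : 0 < m := Nat.pos_of_ne_zero (by rintro rfl; exact hNm (dvd_zero _))
  have hgeom : DRGeom A 4 N hN h4 hA m :=
    drGeom_of_neat 4 N hN h4 (Or.inl dvd_rfl) A hA hNm
  have hGal := Lib.Frobenius.isGalois_algebraicClosure inferInstance
  obtain ⟨φ, hφ⟩ := Lib.Frobenius.exists_isFrobeniusAt A hN hA
  letI := algebraAlong (lvl (N := N) (N' := 4 * N) (Dvd.intro_left 4 rfl))
  haveI := isScalarTower_along (lvl (N := N) (N' := 4 * N) (Dvd.intro_left 4 rfl))
  haveI : FiniteDimensional (FN N) (FN (4 * N)) :=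
    finiteAlong_lvl (N := N) (N' := 4 * N) (Dvd.intro_left 4 rfl)
  exact weil_pow_of_mem_KoneL (Conc.R1 A 4 N hN h4 hA) (Conc.R2 A 4 N hN h4 hA) hm0 hN.pos hm.symm
    (gal (4 * N) φ) (wS 4 N hN h4) (fun _ => rfl)
    (fun ζ hζ => S31.frobenius_apply_root A hN hA hφ hNm hζ)
    (fun ξ hξ => by
      have h := frob_of_DRGeom A 4 N hN h4 hA hgeom φ hφ hξ
      rwa [wKV_eq 4 N hN h4] at h) hx hy

end Fermat.Agent.S15.LocN
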