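/-
S15 / LOC-N, abstract part 1: the tame `r`-quotient of an inertia group `I_A`, `A ∣ N`, `r ≠ N`, is pro-cyclic.

* `IsTameGen A N r s0` : `s0 ∈ I_A` moves an `r`-th root of `N`.
* `exists_isTameGen`.
* `IsTameGen.mulChar_eq_one` : a smooth character `I_A → μ_{r^k}` which is trivial at `s0` is trivial (Kummer theory over `Qb^{I_A}`).
* `IsTameGen.hom_eq_zero` : a smooth homomorphism `I_A → B`, `B` a finite abelian `r`-group, which vanishes at `s0` is zero.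
-/
import Fermat.Agent.S15.Sel.ArVal
import Fermat.Agent.S15.Sel.ArChar
import Fermat.Agent.S56.F.LF.Kummer
import Fermat.Agent.S56.F.LF.Resid
import Fermat.Agent.S56.F.LF.Theta

set_option autoImplicit false

namespace Fermat.Agent.S15.LocN

open Fermat.Agent.S15.Sel

/-- `s0 ∈ I_A` moves an `r`-th root of `N`: it generates the tame `r`-quotient. -/
def IsTameGen (A : ValuationSubring Qb) (N r : ℕ) (s0 : GQ) : Prop :=
  s0 ∈ Ine A ∧ ∃ π : Qb, π ^ r = (N : Qb) ∧ s0 π ≠ π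

theorem exists_isTameGen (A : ValuationSubring Qb) {N r : ℕ} (hN : N.Prime) (hA : A.LiesOverPrime N)
    (hr : r.Prime) : ∃ s0 : GQ, IsTameGen A N r s0 := by
  obtain ⟨π, hπ⟩ := IsAlgClosed.exists_pow_nat_eq (N : Qb) hr.pos
  by_contra hcon
  have hfix : ∀ σ ∈ Ine A, σ π = π := by
    intro σ hσ
    by_contra hne
    exact hcon ⟨σ, hσ, π, hπ, hne⟩
  have hN0 : (N : Qb) ≠ 0 := Nat.cast_ne_zero.2 hN.ne_zero
  have hπ0 : π ≠ 0 := by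
    rintro rfl
    rw [zero_pow hr.ne_zero] at hπ
    exact hN0 hπ.symm
  obtain ⟨n, hn⟩ := exists_zpow_of_fixed A hN hA hπ0 hfix
  have h1 : A.valuation (N : Qb) ^ (n * r) = A.valuation (N : Qb) ^ (1 : ℤ) := by
    rw [zpow_mul, ← hn, zpow_natCast, ← map_pow, hπ, zpow_one]
  have h2 := zpow_valuation_injective A hN hA h1
  have h3 : (r : ℤ) ∣ 1 := ⟨n, by rw [← h2]; ring⟩
  have h4 : r ∣ 1 := by exact_mod_cast h3
  exact hr.one_lt.ne' (Nat.dvd_one.1 h4)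

/-- **Hilbert 90** for smooth cocycles on a subgroup `Γ ≤ GQ`. -/
theorem h90_sub (Γ : Subgroup GQ) (b : GQ → Qb) (hb0 : ∀ σ ∈ Γ, b σ ≠ 0)
    (hcoc : ∀ σ ∈ Γ, ∀ τ ∈ Γ, b (σ * τ) = b σ * σ (b τ))
    (hsm : ∃ s : Finset Qb, ∀ σ ∈ Γ, (∀ z ∈ s, σ z = z) → b σ = 1) :
    ∃ β : Qb, β ≠ 0 ∧ ∀ σ ∈ Γ, σ β = b σ * β := by
  obtain ⟨s, hs⟩ := hsm
  have hL : FiniteDimensional ℚ (IntermediateField.adjoin ℚ (s : Set Qb)) :=
    IntermediateField.finiteDimensional_adjoin fun x _ => (Algebra.IsIntegral.isIntegral x)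
  obtain ⟨L', hle, hfd, hn⟩ := Fermat.Agent.PT.exists_normal_level_all _ hL
  obtain ⟨β, hβ0, hβ⟩ := Fermat.Agent.PT.hilbert90_poincare (Ω := Qb) (G := GQ)
    Fermat.Agent.PT.Lall
    (fun U hU g hg => Fermat.Agent.PT.mem_level_of_fixes hU hg) Γ b hb0
    ⟨L'.fixingSubgroup, ⟨hn, L', hfd, rfl⟩, fun v hv u hu huΓ => by
      have h0 : b u = 1 := hs u huΓ fun x hx =>
        (IntermediateField.mem_fixingSubgroup_iff L' u).mp hu x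
          (hle (IntermediateField.subset_adjoin ℚ _ hx))
      rw [hcoc v hv u huΓ, h0, map_one, mul_one]⟩
    hcoc
  exact ⟨β, hβ0, fun σ hσ => by rw [mul_comm]; exact hβ σ hσ⟩

section

variable {A : ValuationSubring Qb} {N r : ℕ} {s0 : GQ}

/-- roots of unity of order prime to `N` are fixed by inertia. -/
theorem ine_fix_of_pow (hN : N.Prime) (hA : A.LiesOverPrime N) {n : ℕ} (hn : ¬ N ∣ n) {z : Qb}
    (hz : z ^ n = 1) {σ : GQ} (hσ : σ ∈ Ine A) : σ z = z :=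
  Fermat.Agent.S56.F.LF.IsTeich.map_ine (P := ⟨A, N, hN, hA⟩) ⟨n, hn, hz⟩ hσ

/-- an `n`-th root (`N ∤ n`) of an inertia-invariant unit is inertia-invariant. -/
theorem ine_fix_root (hN : N.Prime) (hA : A.LiesOverPrime N) {n : ℕ} (hn : ¬ N ∣ n) {ρ : Qb}
    (hv : A.valuation ρ = 1) (hfix : ∀ σ ∈ Ine A, σ (ρ ^ n) = ρ ^ n) {σ : GQ} (hσ : σ ∈ Ine A) :
    σ ρ = ρ := by
  let P : Fermat.Agent.PT.Local.Plc := ⟨A, N, hN, hA⟩
  have hρ0 : ρ ≠ 0 := by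
    rintro rfl
    rw [map_zero] at hv
    exact zero_ne_one hv
  have ht : Fermat.Agent.S56.F.LF.IsTeich P (σ ρ / ρ) := by
    refine ⟨n, hn, ?_⟩
    rw [div_pow, ← map_pow, hfix σ hσ, div_self (pow_ne_zero _ hρ0)]
  have h1 : Fermat.Agent.S56.F.LF.rs P (σ ρ / ρ) = Fermat.Agent.S56.F.LF.rs P 1 := by
    rw [Fermat.Agent.S56.F.LF.rs_one]
    exact Fermat.Agent.S56.F.LF.theta_unit P hv hσ
  have h2 := Fermat.Agent.S56.F.LF.IsTeich.eq_of_rs_eq P ht (Fermat.Agent.S56.F.LF.IsTeich.one P) h1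
  rwa [div_eq_one_iff_eq hρ0] at h2

/-- **Tame cyclicity** (Kummer theory over `Qb^{I_A}`): every smooth character `I_A → μ_m`, `m` prime to `N`, is a power of the tame
character `σ ↦ σ π / π`, `π ^ m = N`. -/
theorem tame_cyclic {m : ℕ} (hN : N.Prime) (hm : Nat.Coprime m N) (hA : A.LiesOverPrime N) (π : Qb)
    (hπ : π ^ m = (N : Qb)) (b : GQ → Qb) (hb : ∀ σ ∈ Ine A, b σ ^ m = 1)
    (hmul : ∀ σ ∈ Ine A, ∀ τ ∈ Ine A, b (σ * τ) = b σ * b τ)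
    (hsm : ∃ s : Finset Qb, ∀ σ ∈ Ine A, (∀ z ∈ s, σ z = z) → b σ = 1) :
    ∃ n : ℕ, ∀ σ ∈ Ine A, b σ = (σ π / π) ^ n := by
  have hN0 : (N : Qb) ≠ 0 := Nat.cast_ne_zero.2 hN.ne_zero
  have hm0 : 0 < m := by
    rcases Nat.eq_zero_or_pos m with h | h
    · subst h
      rw [pow_zero] at hπ
      have : N = 1 := by exact_mod_cast hπ.symm
      exact absurd this hN.one_lt.ne'
    · exact h
  have hNm : ¬ N ∣ m := fun h => hN.one_lt.ne' (Nat.eq_one_of_dvd_coprimes hm h dvd_rfl)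
  have hπ0 : π ≠ 0 := by
    rintro rfl
    rw [zero_pow hm0.ne'] at hπ
    exact hN0 hπ.symm
  obtain ⟨β, hβ0, hβ⟩ := h90_sub (Ine A) b
    (fun σ hσ h => by
      have := hb σ hσ
      rw [h, zero_pow hm0.ne'] at this
      exact zero_ne_one this)
    (fun σ hσ τ hτ => by rw [hmul σ hσ τ hτ, ine_fix_of_pow hN hA hNm (hb τ hτ) hσ]) hsm
  have hufix : ∀ σ ∈ Ine A, σ (β ^ m) = β ^ m := by
    intro σ hσ
    rw [map_pow, hβ σ hσ, mul_pow, hb σ hσ, one_mul]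
  obtain ⟨n, hn⟩ := exists_zpow_of_fixed A hN hA (pow_ne_zero _ hβ0) hufix
  have hρm : (β / π ^ n) ^ m = β ^ m / (N : Qb) ^ n := by
    rw [div_pow, ← zpow_natCast (π ^ n), ← zpow_mul, mul_comm, zpow_mul, zpow_natCast, hπ]
  have hvN0 : A.valuation (N : Qb) ≠ 0 := (Valuation.ne_zero_iff _).2 hN0
  have hvρ : A.valuation (β / π ^ n) = 1 := by
    have h1 : A.valuation (β / π ^ n) ^ m = 1 := by
      rw [← map_pow, hρm, map_div₀, hn, map_zpow₀, div_self (zpow_ne_zero _ hvN0)]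
    exact (pow_eq_one_iff.1 h1).resolve_right hm0.ne'
  have hρfix : ∀ σ ∈ Ine A, σ (β / π ^ n) = β / π ^ n := fun σ hσ =>
    ine_fix_root hN hA hNm hvρ (fun τ hτ => by
      rw [hρm, map_div₀, hufix τ hτ, map_zpow₀, map_natCast]) hσ
  have key : ∀ σ ∈ Ine A, b σ = (σ π / π) ^ n := by
    intro σ hσ
    have h1 := hρfix σ hσ
    rw [map_div₀, map_zpow₀, hβ σ hσ] at h1
    have hσπ : σ π ≠ 0 := (map_ne_zero σ).2 hπ0
    rw [div_zpow]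
    field_simp at h1 ⊢
    exact h1
  have hroot : ∀ σ : GQ, (σ π / π) ^ m = 1 := by
    intro σ
    rw [div_pow, ← map_pow, hπ, map_natCast, div_self hN0]
  refine ⟨(n % (m : ℤ)).toNat, fun σ hσ => ?_⟩
  have hmz : (m : ℤ) ≠ 0 := by exact_mod_cast hm0.ne'
  have h1 : ((n % (m : ℤ)).toNat : ℤ) = n % (m : ℤ) := Int.toNat_of_nonneg (Int.emod_nonneg _ hmz)
  rw [key σ hσ, ← zpow_natCast _ (n % (m : ℤ)).toNat, h1]
  conv_lhs => rw [← Int.mul_ediv_add_emod n m, zpow_add₀ (div_ne_zero ((map_ne_zero σ).2 hπ0) hπ0),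
    zpow_mul, zpow_natCast, hroot σ, one_zpow, one_mul]

/-- **Kummer theory over `Qb^{I_A}`**: a smooth character `I_A → μ_{r^k}` which is trivial at a tame generator is trivial. -/
theorem IsTameGen.mulChar_eq_one (hN : N.Prime) (hA : A.LiesOverPrime N) (hr : r.Prime) (hrN : r ≠ N)
    (h0 : IsTameGen A N r s0) (k : ℕ) (b : GQ → Qb) (hb : ∀ σ ∈ Ine A, b σ ^ (r ^ k) = 1)
    (hmul : ∀ σ ∈ Ine A, ∀ τ ∈ Ine A, b (σ * τ) = b σ * b τ)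
    (hsm : ∃ s : Finset Qb, ∀ σ ∈ Ine A, (∀ z ∈ s, σ z = z) → b σ = 1) (hs0 : b s0 = 1) :
    ∀ σ ∈ Ine A, b σ = 1 := by
  obtain ⟨hs0I, π, hπ, hne⟩ := h0
  have : Fact r.Prime := ⟨hr⟩
  have hb' : ∀ σ ∈ Ine A, b σ ^ (r ^ (k + 1)) = 1 := fun σ hσ => by
    rw [pow_succ, pow_mul, hb σ hσ, one_pow]
  have hm0 : 0 < r ^ (k + 1) := pow_pos hr.pos _
  have hNm : ¬ N ∣ r ^ (k + 1) := fun h =>
    hrN ((Nat.prime_dvd_prime_iff_eq hN hr).1 (hN.dvd_of_dvd_pow h)).symm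
  have hN0 : (N : Qb) ≠ 0 := Nat.cast_ne_zero.2 hN.ne_zero
  obtain ⟨ϖ, hϖ⟩ := IsAlgClosed.exists_pow_nat_eq π (pow_pos hr.pos k)
  have hϖm : ϖ ^ (r ^ (k + 1)) = (N : Qb) := by rw [pow_succ, pow_mul, hϖ, hπ]
  have hϖ0 : ϖ ≠ 0 := by
    rintro rfl
    rw [zero_pow hm0.ne'] at hϖm
    exact hN0 hϖm.symm
  have hπ0 : π ≠ 0 := by rw [← hϖ]; exact pow_ne_zero _ hϖ0
  obtain ⟨β, hβ0, hβ⟩ := h90_sub (Ine A) b
    (fun σ hσ h => by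
      have := hb' σ hσ
      rw [h, zero_pow hm0.ne'] at this
      exact zero_ne_one this)
    (fun σ hσ τ hτ => by rw [hmul σ hσ τ hτ, ine_fix_of_pow hN hA hNm (hb' τ hτ) hσ]) hsm
  have hufix : ∀ σ ∈ Ine A, σ (β ^ (r ^ (k + 1))) = β ^ (r ^ (k + 1)) := by
    intro σ hσ
    rw [map_pow, hβ σ hσ, mul_pow, hb' σ hσ, one_mul]
  obtain ⟨n, hn⟩ := exists_zpow_of_fixed A hN hA (pow_ne_zero _ hβ0) hufix
  have hρm : (β / ϖ ^ n) ^ (r ^ (k + 1)) = β ^ (r ^ (k + 1)) / (N : Qb) ^ n := by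
    rw [div_pow, ← zpow_natCast (ϖ ^ n), ← zpow_mul, mul_comm, zpow_mul, zpow_natCast, hϖm]
  have hvN0 : A.valuation (N : Qb) ≠ 0 := (Valuation.ne_zero_iff _).2 hN0
  have hvρ : A.valuation (β / ϖ ^ n) = 1 := by
    have h1 : A.valuation (β / ϖ ^ n) ^ (r ^ (k + 1)) = 1 := by
      rw [← map_pow, hρm, map_div₀, hn, map_zpow₀, div_self (zpow_ne_zero _ hvN0)]
    exact (pow_eq_one_iff.1 h1).resolve_right hm0.ne'
  have hρfix : ∀ σ ∈ Ine A, σ (β / ϖ ^ n) = β / ϖ ^ n := fun σ hσ =>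
    ine_fix_root hN hA hNm hvρ (fun τ hτ => by
      rw [hρm, map_div₀, hufix τ hτ, map_zpow₀, map_natCast]) hσ
  have key : ∀ σ ∈ Ine A, b σ = (σ ϖ / ϖ) ^ n := by
    intro σ hσ
    have h1 := hρfix σ hσ
    rw [map_div₀, map_zpow₀, hβ σ hσ] at h1
    have hσϖ : σ ϖ ≠ 0 := (map_ne_zero σ).2 hϖ0
    rw [div_zpow]
    field_simp at h1 ⊢
    exact h1
  have hroot : ∀ σ : GQ, (σ ϖ / ϖ) ^ (r ^ (k + 1)) = 1 := by
    intro σ
    rw [div_pow, ← map_pow, hϖm, map_natCast, div_self hN0]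
  have hξ : IsPrimitiveRoot (s0 ϖ / ϖ) (r ^ (k + 1)) := by
    have h1 : orderOf (s0 ϖ / ϖ) = r ^ (k + 1) := by
      refine orderOf_eq_prime_pow ?_ (hroot s0)
      rw [div_pow, ← map_pow, hϖ, div_eq_one_iff_eq hπ0]
      exact hne
    rw [← h1]
    exact IsPrimitiveRoot.orderOf _
  have hdvd : ((r ^ (k + 1) : ℕ) : ℤ) ∣ n := by
    rw [← hξ.zpow_eq_one_iff_dvd, ← key s0 hs0I, hs0]
  obtain ⟨n', rfl⟩ := hdvd
  intro σ hσ
  rw [key σ hσ, zpow_mul, zpow_natCast, hroot σ, one_zpow]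

/-- a smooth homomorphism from `I_A` to a finite abelian `r`-group which vanishes at a tame generator is zero. -/
theorem IsTameGen.hom_eq_zero (hN : N.Prime) (hA : A.LiesOverPrime N) (hr : r.Prime) (hrN : r ≠ N)
    (h0 : IsTameGen A N r s0) {B : Type*} [AddCommGroup B] [Finite B] (k : ℕ)
    (hB : ∀ x : B, r ^ k • x = 0) (h : GQ → B)
    (hadd : ∀ σ ∈ Ine A, ∀ τ ∈ Ine A, h (σ * τ) = h σ + h τ)
    (hsm : ∃ s : Finset Qb, ∀ σ ∈ Ine A, (∀ z ∈ s, σ z = z) → h σ = 0) (hs0 : h s0 = 0) :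
    ∀ σ ∈ Ine A, h σ = 0 := by
  intro σ hσ
  apply eq_of_forall_char
  intro ψ
  rw [AddChar.map_zero_eq_one]
  refine h0.mulChar_eq_one hN hA hr hrN k (fun τ => ψ (h τ)) (fun τ _ => ?_) (fun τ hτ τ' hτ' => ?_) ?_ ?_
    σ hσ
  · rw [← AddChar.map_nsmul_eq_pow, hB, AddChar.map_zero_eq_one]
  · show ψ (h (τ * τ')) = _
    rw [hadd τ hτ τ' hτ', AddChar.map_add_eq_mul]
  · obtain ⟨s, hs⟩ := hsm
    exact ⟨s, fun τ hτ hz => by show ψ (h τ) = 1; rw [hs τ hτ hz, AddChar.map_zero_eq_one]⟩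
  · show ψ (h s0) = 1
    rw [hs0, AddChar.map_zero_eq_one]

/-- two smooth homomorphisms `I_A → ℤ/r` are proportional. -/
theorem exists_proportional (hN : N.Prime) (hA : A.LiesOverPrime N) (hr : r.Prime) (hrN : r ≠ N)
    (ψ₁ ψ₂ : GQ → ZMod r)
    (hadd₁ : ∀ σ ∈ Ine A, ∀ τ ∈ Ine A, ψ₁ (σ * τ) = ψ₁ σ + ψ₁ τ)
    (hadd₂ : ∀ σ ∈ Ine A, ∀ τ ∈ Ine A, ψ₂ (σ * τ) = ψ₂ σ + ψ₂ τ)
    (hsm₁ : ∃ s : Finset Qb, ∀ σ ∈ Ine A, (∀ z ∈ s, σ z = z) → ψ₁ σ = 0)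
    (hsm₂ : ∃ s : Finset Qb, ∀ σ ∈ Ine A, (∀ z ∈ s, σ z = z) → ψ₂ σ = 0) :
    ∃ a b : ZMod r, (a ≠ 0 ∨ b ≠ 0) ∧ ∀ σ ∈ Ine A, a * ψ₁ σ + b * ψ₂ σ = 0 := by
  classical
  have : Fact r.Prime := ⟨hr⟩
  obtain ⟨s0, h0⟩ := exists_isTameGen A hN hA hr
  have hB : ∀ x : ZMod r, r ^ 1 • x = 0 := fun x => by
    rw [pow_one, nsmul_eq_mul, ZMod.natCast_self, zero_mul]
  by_cases h1 : ψ₁ s0 = 0
  · refine ⟨1, 0, Or.inl one_ne_zero, fun σ hσ => ?_⟩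
    rw [h0.hom_eq_zero hN hA hr hrN 1 hB ψ₁ hadd₁ hsm₁ h1 σ hσ]
    ring
  · refine ⟨ψ₂ s0, -ψ₁ s0, Or.inr (neg_ne_zero.2 h1), ?_⟩
    refine h0.hom_eq_zero hN hA hr hrN 1 hB (fun σ => ψ₂ s0 * ψ₁ σ + -ψ₁ s0 * ψ₂ σ)
      (fun σ hσ τ hτ => ?_) ?_ ?_
    · show ψ₂ s0 * ψ₁ (σ * τ) + -ψ₁ s0 * ψ₂ (σ * τ) = _
      rw [hadd₁ σ hσ τ hτ, hadd₂ σ hσ τ hτ]
      ring
    · obtain ⟨s, hs⟩ := hsm₁
      obtain ⟨s', hs'⟩ := hsm₂
      refine ⟨s ∪ s', fun σ hσ hz => ?_⟩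
      show ψ₂ s0 * ψ₁ σ + -ψ₁ s0 * ψ₂ σ = 0
      rw [hs σ hσ fun z hz' => hz z (Finset.mem_union_left _ hz'),
        hs' σ hσ fun z hz' => hz z (Finset.mem_union_right _ hz')]
      ring
    · show ψ₂ s0 * ψ₁ s0 + -ψ₁ s0 * ψ₂ s0 = 0
      ring

end

end Fermat.Agent.S15.LocN
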