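/-
S15 / LOC-N, abstract part 2: **N1 by counting**.

`V` a finite abelian `r`-group with smooth `GQ`-action, `A ∣ N`, `r ≠ N`, `s0` a tame generator of `I = I_A`,
`T ≤ V` ("toric part") with `(σ - 1) V ⊆ T` and `σ = 1` on `T` for `σ ∈ I`.

* `mem_Inv_iff`     : `V^I = ker (s0 - 1)`;
* `index_Inv`       : `[V : V^I] = #(s0 - 1) V`;
* `range_nu_le`     : `(s0 - 1) V ≤ T`;
* `exists_cob`      : a smooth cocycle `c` with `c(I) ⊆ T` and `n • c s0 ∈ (s0 - 1) V` satisfies `n • c = d m` on `I`;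
* `factorial_smul_mem` : `#T ≤ B * #(s0 - 1)V  ⟹  B! • T ⊆ (s0 - 1) V`;
* `N1_abs`          : Mazur's inequality (`Sel.main'`, which gives `[V : Vm] ≤ #H⁰ * [V : V^I]`) + `#T ≤ C * [V : Vm]` (two isotropy statements)
                      `⟹ (C * h)! • c = d m` on `I` for every smooth cocycle `c` with `c(I) ⊆ T`;
* `sel_bound`       : the resulting bound `[𝒦 : B¹] ≤ h * C`.
-/
import Fermat.Agent.S15.LocN.Tame
import Fermat.Agent.S15.Sel.Main

set_option autoImplicit false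

namespace Fermat.Agent.S15.LocN

open Fermat.Agent.S15.Sel

section

variable {V : Type*} [AddCommGroup V] [DistribMulAction GQ V]

/-- the invariants of the inertia group `I_A`. -/
def Inv (A : ValuationSubring Qb) (V : Type*) [AddCommGroup V] [DistribMulAction GQ V] :
    AddSubgroup V where
  carrier := {x | ∀ σ ∈ Ine A, σ • x = x}
  zero_mem' := fun σ _ => smul_zero σ
  add_mem' := fun {a b} ha hb σ hσ => by rw [smul_add, ha σ hσ, hb σ hσ]
  neg_mem' := fun {a} ha σ hσ => by rw [smul_neg, ha σ hσ]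

theorem mem_Inv {A : ValuationSubring Qb} {x : V} : x ∈ Inv A V ↔ ∀ σ ∈ Ine A, σ • x = x := Iff.rfl

/-- `ν = s0 - 1`. -/
noncomputable def nu (s0 : GQ) (V : Type*) [AddCommGroup V] [DistribMulAction GQ V] : V →+ V :=
  DistribSMul.toAddMonoidHom V s0 - AddMonoidHom.id V

@[simp] theorem nu_apply (s0 : GQ) (x : V) : nu s0 V x = s0 • x - x := rfl

/-- the toric datum at `A`. -/
structure IsTor (A : ValuationSubring Qb) (T : AddSubgroup V) : Prop where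
  sub_mem : ∀ σ ∈ Ine A, ∀ x : V, σ • x - x ∈ T
  fix : ∀ σ ∈ Ine A, ∀ x ∈ T, σ • x = x

variable {A : ValuationSubring Qb} {N r : ℕ} {s0 : GQ} {T : AddSubgroup V}

theorem IsTor.dd_mul (hT : IsTor A T) (x : V) {σ τ : GQ} (hσ : σ ∈ Ine A) (hτ : τ ∈ Ine A) :
    dd x (σ * τ) = dd x σ + dd x τ := by
  have h := hT.fix σ hσ _ (hT.sub_mem τ hτ x)
  rw [smul_sub] at h
  simp only [dd_apply, mul_smul]
  rw [← h]
  abel

theorem IsTor.coc_mul (hT : IsTor A T) {c : GQ → V} (hc : IsCoc c) (hcT : ∀ σ ∈ Ine A, c σ ∈ T)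
    {σ τ : GQ} (hσ : σ ∈ Ine A) (hτ : τ ∈ Ine A) : c (σ * τ) = c σ + c τ := by
  rw [hc σ τ, hT.fix σ hσ _ (hcT τ hτ)]

theorem range_nu_le (hT : IsTor A T) (h0 : IsTameGen A N r s0) : (nu s0 V).range ≤ T := by
  rintro _ ⟨x, rfl⟩
  exact hT.sub_mem s0 h0.1 x

variable [Finite V]

theorem mem_Inv_iff (hN : N.Prime) (hA : A.LiesOverPrime N) (hr : r.Prime) (hrN : r ≠ N)
    (h0 : IsTameGen A N r s0) (hT : IsTor A T) (k : ℕ) (hV : ∀ x : V, r ^ k • x = 0)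
    (hsm : ∀ x : V, IsSm (dd x)) (x : V) : x ∈ Inv A V ↔ s0 • x = x := by
  refine ⟨fun h => h s0 h0.1, fun h σ hσ => ?_⟩
  have := h0.hom_eq_zero hN hA hr hrN k hV (dd x) (fun σ hσ τ hτ => hT.dd_mul x hσ hτ)
    (by obtain ⟨s, hs⟩ := hsm x; exact ⟨s, fun σ _ hz => hs σ hz⟩)
    (by rw [dd_apply, h, sub_self]) σ hσ
  rwa [dd_apply, sub_eq_zero] at this

theorem ker_nu (hN : N.Prime) (hA : A.LiesOverPrime N) (hr : r.Prime) (hrN : r ≠ N)
    (h0 : IsTameGen A N r s0) (hT : IsTor A T) (k : ℕ) (hV : ∀ x : V, r ^ k • x = 0)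
    (hsm : ∀ x : V, IsSm (dd x)) : (nu s0 V).ker = Inv A V := by
  ext x
  rw [AddMonoidHom.mem_ker, nu_apply, sub_eq_zero, mem_Inv_iff hN hA hr hrN h0 hT k hV hsm]

theorem index_Inv (hN : N.Prime) (hA : A.LiesOverPrime N) (hr : r.Prime) (hrN : r ≠ N)
    (h0 : IsTameGen A N r s0) (hT : IsTor A T) (k : ℕ) (hV : ∀ x : V, r ^ k • x = 0)
    (hsm : ∀ x : V, IsSm (dd x)) : (Inv A V).index = Nat.card (nu s0 V).range := by
  rw [← ker_nu hN hA hr hrN h0 hT k hV hsm, AddSubgroup.index_ker]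

/-- a cocycle with values in `T` on `I` whose value at `s0` is (up to `n`) in `(s0 - 1) V` is (up to `n`) a coboundary on `I`. -/
theorem exists_cob (hN : N.Prime) (hA : A.LiesOverPrime N) (hr : r.Prime) (hrN : r ≠ N)
    (h0 : IsTameGen A N r s0) (hT : IsTor A T) (k : ℕ) (hV : ∀ x : V, r ^ k • x = 0)
    (hsm : ∀ x : V, IsSm (dd x)) {c : GQ → V} (hc : IsCoc c) (hcsm : IsSm c)
    (hcT : ∀ σ ∈ Ine A, c σ ∈ T) (n : ℕ) (hn : n • c s0 ∈ (nu s0 V).range) :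
    ∃ m : V, ∀ σ ∈ Ine A, n • c σ = σ • m - m := by
  obtain ⟨m, hm⟩ := hn
  refine ⟨m, fun σ hσ => ?_⟩
  have := h0.hom_eq_zero hN hA hr hrN k hV (fun σ => n • c σ - dd m σ)
    (fun σ hσ τ hτ => by
      show n • c (σ * τ) - dd m (σ * τ) = _
      rw [hT.dd_mul m hσ hτ, hT.coc_mul hc hcT hσ hτ, smul_add]
      abel)
    (by
      classical
      obtain ⟨s, hs⟩ := hsm m
      obtain ⟨s', hs'⟩ := hcsm
      refine ⟨s ∪ s', fun σ _ hz => ?_⟩
      show n • c σ - dd m σ = 0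
      rw [hs σ fun z hz' => hz z (Finset.mem_union_left _ hz'),
        hs' σ fun z hz' => hz z (Finset.mem_union_right _ hz'), smul_zero, sub_zero])
    (by
      show n • c s0 - dd m s0 = 0
      rw [dd_apply, ← hm, nu_apply, sub_self]) σ hσ
  rw [← dd_apply]
  exact sub_eq_zero.1 this

omit [DistribMulAction GQ V] in
/-- `#T ≤ B * #U`, `U ≤ T` `⟹` `B! • T ⊆ U`. -/
theorem factorial_smul_mem {U T : AddSubgroup V} (hUT : U ≤ T) (B : ℕ)
    (hB : Nat.card T ≤ B * Nat.card U) {x : V} (hx : x ∈ T) : B.factorial • x ∈ U := by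
  have h1 : U.relIndex T * Nat.card U = Nat.card T := by
    have h := AddSubgroup.card_mul_index (U.addSubgroupOf T)
    rw [Nat.card_congr (AddSubgroup.addSubgroupOfEquivOfLe hUT).toEquiv] at h
    rw [mul_comm]
    exact h
  have hU : 0 < Nat.card U := Nat.card_pos
  have h2 : U.relIndex T ≤ B := by
    rw [← h1] at hB
    exact Nat.le_of_mul_le_mul_right hB hU
  have h3 : U.relIndex T ≠ 0 := by
    intro h
    rw [h, zero_mul] at h1
    exact (Nat.card_pos (α := T)).ne h1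
  have h4 : U.relIndex T ∣ B.factorial := Nat.dvd_factorial (Nat.pos_of_ne_zero h3) h2
  obtain ⟨d, hd⟩ := h4
  have h5 : U.relIndex T • (⟨x, hx⟩ : T) ∈ U.addSubgroupOf T :=
    AddSubgroup.nsmul_index_mem (U.addSubgroupOf T) _
  have h6 : U.relIndex T • x ∈ U := by
    simpa [AddSubgroup.mem_addSubgroupOf] using h5
  rw [hd, mul_comm, mul_smul]
  exact U.nsmul_mem h6 d

end

section main

universe u

variable {P : Places} {r N : ℕ} {V : Type u} [AddCommGroup V] [DistribMulAction GQ V] [Finite V]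

/-- **non-degeneracy of the monodromy from Mazur's inequality**: `[V : Vm] ≤ #H⁰ * #(s0 - 1) V`. -/
theorem index_Vm_le (hr : r.Prime) (hN : N.Prime) (hrN : r ≠ N) (D : SelDat P r N V)
    (hVf : D.Vf = Inv (P.pl N) V) (k : ℕ) (hV : ∀ x : V, r ^ k • x = 0)
    (s : ℕ) (F : ℕ → AddSubgroup V) (h0 : F 0 = ⊥) (hs : F s = ⊤) (hst : ∀ i, GStable (F i))
    (hstep : ∀ i < s, IsStep r (F i) (F (i + 1)))
    {T : AddSubgroup V} (hT : IsTor (P.pl N) T) {s0 : GQ} (hs0 : IsTameGen (P.pl N) N r s0) :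
    D.Vm.index ≤ Nat.card (H0 D ⊤) * Nat.card (nu s0 V).range := by
  obtain ⟨h1, h2⟩ := main' hr D s F h0 hs hst hstep
  rw [hVf, index_Inv hN (P.lies N hN) hr hrN hs0 hT k hV D.sm] at h2
  refine le_trans ?_ h2
  exact Nat.le_mul_of_pos_left _ (Nat.pos_of_ne_zero h1)

/-- **N1.** -/
theorem N1_abs (hr : r.Prime) (hN : N.Prime) (hrN : r ≠ N) (D : SelDat P r N V)
    (hVf : D.Vf = Inv (P.pl N) V) (k : ℕ) (hV : ∀ x : V, r ^ k • x = 0)
    (s : ℕ) (F : ℕ → AddSubgroup V) (h0 : F 0 = ⊥) (hs : F s = ⊤) (hst : ∀ i, GStable (F i))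
    (hstep : ∀ i < s, IsStep r (F i) (F (i + 1)))
    {T : AddSubgroup V} (hT : IsTor (P.pl N) T) (C h : ℕ) (hC : Nat.card T ≤ C * D.Vm.index)
    (hh : Nat.card (H0 D ⊤) ≤ h) {c : GQ → V} (hc : IsCoc c) (hcsm : IsSm c)
    (hcT : ∀ σ ∈ Ine (P.pl N), c σ ∈ T) :
    ∃ m : V, ∀ σ ∈ Ine (P.pl N), (C * h).factorial • c σ = σ • m - m := by
  obtain ⟨s0, hs0⟩ := exists_isTameGen (P.pl N) hN (P.lies N hN) hr
  have h1 := index_Vm_le hr hN hrN D hVf k hV s F h0 hs hst hstep hT hs0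
  have h2 : Nat.card T ≤ (C * h) * Nat.card (nu s0 V).range := by
    calc Nat.card T ≤ C * D.Vm.index := hC
      _ ≤ C * (Nat.card (H0 D ⊤) * Nat.card (nu s0 V).range) := Nat.mul_le_mul_left _ h1
      _ ≤ C * (h * Nat.card (nu s0 V).range) :=
          Nat.mul_le_mul_left _ (Nat.mul_le_mul_right _ hh)
      _ = (C * h) * Nat.card (nu s0 V).range := by ring
  exact exists_cob hN (P.lies N hN) hr hrN hs0 hT k hV D.sm hc hcsm hcT _
    (factorial_smul_mem (range_nu_le hT hs0) _ h2 (hcT s0 hs0.1))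

/-- **the Selmer bound**: a group `𝒦` of cocycles which can be completed to cone cocycles has image of order `≤ h * C` in `H¹(GQ, V)`. -/
theorem sel_bound (hr : r.Prime) (hN : N.Prime) (hrN : r ≠ N) (D : SelDat P r N V)
    (hVf : D.Vf = Inv (P.pl N) V) (k : ℕ) (hV : ∀ x : V, r ^ k • x = 0)
    (s : ℕ) (F : ℕ → AddSubgroup V) (h0 : F 0 = ⊥) (hs : F s = ⊤) (hst : ∀ i, GStable (F i))
    (hstep : ∀ i < s, IsStep r (F i) (F (i + 1)))
    {T : AddSubgroup V} (hT : IsTor (P.pl N) T) (C h : ℕ) (hC : Nat.card T ≤ C * D.Vm.index)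
    (hh : Nat.card (H0 D ⊤) ≤ h) (𝒦 : AddSubgroup (GQ → V))
    (h𝒦 : ∀ c ∈ 𝒦, ∃ m : V, (c, m) ∈ Z1 D ⊤) :
    (Bd V).relIndex 𝒦 ≠ 0 ∧ (Bd V).relIndex 𝒦 ≤ h * C := by
  obtain ⟨s0, hs0⟩ := exists_isTameGen (P.pl N) hN (P.lies N hN) hr
  obtain ⟨h1, h2⟩ := card_image_le hr D s F h0 hs hst hstep 𝒦 h𝒦
  refine ⟨h1, ?_⟩
  rw [hVf, index_Inv hN (P.lies N hN) hr hrN hs0 hT k hV D.sm] at h2
  have h3 : Nat.card (nu s0 V).range ≤ Nat.card T :=
    AddSubgroup.card_le_of_le (range_nu_le hT hs0)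
  have hpos : 0 < D.Vm.index := Nat.pos_of_ne_zero AddSubgroup.index_ne_zero_of_finite
  refine Nat.le_of_mul_le_mul_right ?_ hpos
  calc (Bd V).relIndex 𝒦 * D.Vm.index ≤ Nat.card (H0 D ⊤) * Nat.card (nu s0 V).range := h2
    _ ≤ h * (C * D.Vm.index) := Nat.mul_le_mul hh (h3.trans hC)
    _ = h * C * D.Vm.index := by ring

end main

end Fermat.Agent.S15.LocN
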