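import Fermat.Agent.DR.Gal.DR1
import Fermat.Agent.S19.Weil.Pairing
import Fermat.Agent.S17.Unr.MinDiv

/-!
# S15 / LOC-N (block P of report 339), file 2: the toric classes in `Pic⁰`, abstract form

`K` algebraically closed of characteristic `0`, `F / K` a function field, `R : RedData K F k Fb` a reduction.

* `KoneP R m` : the subgroup of the classes `x ∈ Pic⁰(F)[m]` having a representative `(D, f)` (`div f = m D`) with `red f = 1`
  (the image in `Pic⁰` of `DR.Gal.Kone R m ⊆ KV K F m`);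
* `KoneL ι R m` : the same for the pull-back along `ι : F → F'` (`R` a reduction of `F'`), a subgroup of `Pic⁰(F)[m]`;
* `kummer_mem_KoneL` : **Kummer cocycles.**  `g` "in the inertia group" (`Compat R g' refl`), `g P₀ = P₀`, `g (m y) = m y`
  ⟹ `g y - y ∈ KoneL ι R m`;
* `rel_of_KV` : transfer of the relation `φ ξ + q w ξ = 0` from `Kone R1 m ∩ Kone R2 m ⊆ KV K F m` to `KoneP R1 m ⊓ KoneP R2 m`.
-/

set_option autoImplicit false
set_option linter.unusedSectionVars false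

namespace Fermat.Agent.S15.LocN

open AlgebraicCurve Fermat.Agent.Lib.RR Fermat.Agent.S19.Weil Fermat.Agent.GAL Fermat.Agent.GAL.RED
  Fermat.Agent.DR.Gal

variable {K F k Fb : Type*} [Field K] [IsAlgClosed K] [CharZero K] [Field F] [Algebra K F] [IsFF K F]
  [Field k] [Field Fb] [Algebra k Fb]

theorem isRep_neg {m : ℕ} {x : Pic0 K F} {D : Divisor K F} {f : F} (h : IsRep m x D f) :
    IsRep m (-x) (-D) f⁻¹ := by
  obtain ⟨hD, rfl, hf, hdiv⟩ := h
  refine ⟨neg_mem hD, rfl, inv_ne_zero hf, ?_⟩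
  rw [divOf_inv, hdiv, smul_neg]

theorem isRep_nsmul {m : ℕ} {x : Pic0 K F} {D : Divisor K F} {f : F} (h : IsRep m x D f) (n : ℕ) :
    IsRep m (n • x) (n • D) (f ^ n) := by
  induction n with
  | zero => rw [zero_nsmul, zero_nsmul, pow_zero]; exact isRep_zero m
  | succ n ih => rw [succ_nsmul, succ_nsmul, pow_succ]; exact ih.add h

theorem isRep_const_mul {m : ℕ} {x : Pic0 K F} {D : Divisor K F} {f : F} (h : IsRep m x D f)
    {c : K} (hc : c ≠ 0) : IsRep m x D (algebraMap K F c * f) := by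
  obtain ⟨hD, rfl, hf, hdiv⟩ := h
  have hc' : algebraMap K F c ≠ 0 := (map_ne_zero _).2 hc
  refine ⟨hD, rfl, mul_ne_zero hc' hf, ?_⟩
  rw [divOf_mul hc' hf, divOf_algebraMap, zero_add, hdiv]

/-- a class represented by an `m`-th power vanishes (`div h = D`). -/
theorem eq_zero_of_isRep_pow {m : ℕ} (hm : m ≠ 0) {x : Pic0 K F} {D : Divisor K F} {h : F}
    (hr : IsRep m x D (h ^ m)) : x = 0 := by
  obtain ⟨hD, rfl, hf, hdiv⟩ := hr
  have hh : h ≠ 0 := fun h0 => hf (by rw [h0, zero_pow hm])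
  have hDh : D = divOf (K := K) h := by
    rw [divOf_pow] at hdiv
    ext v
    have h1 := DFunLike.congr_fun hdiv v
    rw [Finsupp.smul_apply, Finsupp.smul_apply, nsmul_eq_mul, nsmul_eq_mul] at h1
    have hm' : (m : ℤ) ≠ 0 := by exact_mod_cast hm
    exact (mul_left_cancel₀ hm' h1).symm
  have h2 : Pic0.mk ⟨D, hD⟩ = Pic0.mk ⟨0, zero_mem _⟩ :=
    (PairAux_mk_eq_mk_iff hD (zero_mem _)).mpr
      ⟨h⁻¹, inv_ne_zero hh, by rw [divOf_inv, hDh, add_neg_cancel]⟩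
  rw [h2]
  rfl

/-- `(div h, h ^ m)` represents `0`. -/
theorem isRep_pow (m : ℕ) {h : F} (hh : h ≠ 0) :
    IsRep m (0 : Pic0 K F) (divOf (K := K) h) (h ^ m) := by
  have hD : divOf (K := K) h ∈ Divisor.degZero (K := K) (F := F) := by
    rw [Divisor.mem_degZero, degree_divOf]
  refine ⟨hD, ?_, pow_ne_zero _ hh, divOf_pow h m⟩
  have h2 : Pic0.mk ⟨divOf (K := K) h, hD⟩ = Pic0.mk ⟨0, zero_mem _⟩ :=
    (PairAux_mk_eq_mk_iff hD (zero_mem _)).mpr
      ⟨h⁻¹, inv_ne_zero hh, by rw [divOf_inv, add_neg_cancel]⟩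
  rw [h2]
  rfl

/-- The classes having a representative function which reduces to `1`. -/
def KoneP (R : RedData K F k Fb) (m : ℕ) : AddSubgroup (Pic0 K F) where
  carrier := {x | ∃ D f, IsRep m x D f ∧ R.red f = 1}
  zero_mem' := ⟨0, 1, isRep_zero m, by rw [R.red_eq_gred]; exact GRed.one _ _⟩
  add_mem' := by
    rintro x y ⟨D, f, h, hf⟩ ⟨E, g, h', hg⟩
    refine ⟨D + E, f * g, h.add h', ?_⟩
    rw [R.red_mul (R.mem_of_red_ne_zero (by rw [hf]; exact one_ne_zero))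
      (R.mem_of_red_ne_zero (by rw [hg]; exact one_ne_zero)), hf, hg, one_mul]
  neg_mem' := by
    rintro x ⟨D, f, h, hf⟩
    exact ⟨-D, f⁻¹, isRep_neg h, by rw [R.red_inv, hf, inv_one]⟩

theorem mem_KoneP {R : RedData K F k Fb} {m : ℕ} {x : Pic0 K F} :
    x ∈ KoneP R m ↔ ∃ D f, IsRep m x D f ∧ R.red f = 1 := Iff.rfl

theorem KoneP_le_torsion (R : RedData K F k Fb) (m : ℕ) : KoneP R m ≤ Pic0.torsion K F m := by
  rintro x ⟨D, f, h, -⟩
  exact h.mem_torsion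

/-- **The Kummer function.**  (First half of the proof of `S17.Unr.exists_phi`.)
`y = [E_y]`, `m y = [E_x]` with `g E_x = E_x` (`S17.Unr.exists_fixed_rep`), `m E_y - E_x = div φ`; then
`div (g φ / φ) = m (g E_y - E_y)` and `[g E_y - E_y] = g y - y`. -/
theorem exists_kummer_rep (m : ℕ) (g : SemilinearAut K F) (P₀ : Place K F) (hP₀ : g • P₀ = P₀)
    (y : Pic0 K F) (hy : g • (m • y) = m • y) :
    ∃ (D : Divisor K F) (φ : F), φ ≠ 0 ∧ IsRep m (g • y - y) D (g • φ * φ⁻¹) := by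
  obtain ⟨Ey, rfl⟩ := Pic0.mk_surjective y
  obtain ⟨Ex, hEx, hgEx⟩ := S17.Unr.exists_fixed_rep g P₀ hP₀ (m • Pic0.mk Ey) hy
  have h0 : Pic0.mk ⟨(Ex : Divisor K F), Ex.2⟩ = Pic0.mk ⟨((m • Ey : Divisor.degZero (K := K) (F := F)) :
      Divisor K F), (m • Ey).2⟩ := by
    rw [Subtype.coe_eta, Subtype.coe_eta, hEx]
    rfl
  obtain ⟨f, hf, hfD⟩ := (PairAux_mk_eq_mk_iff _ _).mp h0
  rw [AddSubgroup.coe_nsmul] at hfD
  have hdf : divOf (K := K) f = m • (Ey : Divisor K F) - Ex := by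
    rw [hfD]
    abel
  have hgf : g • f ≠ 0 := (smul_ne_zero_iff_ne g).mpr hf
  refine ⟨g • (Ey : Divisor K F) - Ey, f, hf,
    sub_mem (SemilinearAut.smul_mem_degZero g Ey.2) Ey.2, ?_, mul_ne_zero hgf (inv_ne_zero hf), ?_⟩
  · rw [SemilinearAut.pic0_smul_mk]
    have e : (⟨g • (Ey : Divisor K F) - Ey, sub_mem (SemilinearAut.smul_mem_degZero g Ey.2) Ey.2⟩ :
        Divisor.degZero (K := K) (F := F)) = SemilinearAut.degZeroSMulHom g Ey - Ey :=
      Subtype.ext (by rw [AddSubgroup.coe_sub, SemilinearAut.coe_degZeroSMulHom])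
    rw [e]
    rfl
  · rw [divOf_mul hgf (inv_ne_zero hf), divOf_inv, divOf_smul, hdf, smul_sub, hgEx, smul_comm g m,
      smul_sub]
    abel

variable {F' : Type*} [Field F'] [Algebra K F'] [IsFF K F']

/-- The classes of `Pic⁰(F)[m]` whose pull-back along `ι : F → F'` has a representative function which reduces to `1`
(written without the pull-back of classes: `ι f * h ^ m` reduces to `1`). -/
def KoneL (ι : F →+* F') (R : RedData K F' k Fb) (m : ℕ) : AddSubgroup (Pic0 K F) where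
  carrier := {x | ∃ (D : Divisor K F) (f : F) (h : F'), IsRep m x D f ∧ R.red (ι f * h ^ m) = 1}
  zero_mem' := ⟨0, 1, 1, isRep_zero m, by
    rw [map_one, one_pow, one_mul, R.red_eq_gred]; exact GRed.one _ _⟩
  add_mem' := by
    rintro x y ⟨D, f, h, hr, hf⟩ ⟨E, g, h', hr', hg⟩
    refine ⟨D + E, f * g, h * h', hr.add hr', ?_⟩
    have e : ι (f * g) * (h * h') ^ m = (ι f * h ^ m) * (ι g * h' ^ m) := by
      rw [map_mul, mul_pow]; ring
    rw [e, R.red_mul (R.mem_of_red_ne_zero (by rw [hf]; exact one_ne_zero))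
      (R.mem_of_red_ne_zero (by rw [hg]; exact one_ne_zero)), hf, hg, one_mul]
  neg_mem' := by
    rintro x ⟨D, f, h, hr, hf⟩
    refine ⟨-D, f⁻¹, h⁻¹, isRep_neg hr, ?_⟩
    have e : ι f⁻¹ * h⁻¹ ^ m = (ι f * h ^ m)⁻¹ := by
      rw [map_inv₀, inv_pow, mul_inv]
    rw [e, R.red_inv, hf, inv_one]

theorem mem_KoneL {ι : F →+* F'} {R : RedData K F' k Fb} {m : ℕ} {x : Pic0 K F} :
    x ∈ KoneL ι R m ↔ ∃ (D : Divisor K F) (f : F) (h : F'), IsRep m x D f ∧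
      R.red (ι f * h ^ m) = 1 := Iff.rfl

theorem KoneL_le_torsion (ι : F →+* F') (R : RedData K F' k Fb) (m : ℕ) :
    KoneL ι R m ≤ Pic0.torsion K F m := by
  rintro x ⟨D, f, h, hr, -⟩
  exact hr.mem_torsion

/-- **Kummer cocycles take toric values on inertia.**
`φ` from `exists_kummer_rep`; `a` with `red (a ι φ) ≠ 0` (`hS`); `g' (a ι φ) / (a ι φ) = (g' a / a) ι (g φ / φ)` reduces to `1`
(`Compat.red_smul_div`); the constant `g' a / a` is an `m`-th power `c ^ m`. -/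
theorem kummer_mem_KoneL (ι : F →+* F') (R : RedData K F' k Fb) {m : ℕ} (hm : 0 < m)
    (hS : HasScale R) (g : SemilinearAut K F) (g' : SemilinearAut K F')
    (hgg' : ∀ f : F, g' • ι f = ι (g • f)) (h : Compat R g' (RingEquiv.refl Fb)) (P₀ : Place K F)
    (hP₀ : g • P₀ = P₀) (y : Pic0 K F) (hy : g • (m • y) = m • y) : g • y - y ∈ KoneL ι R m := by
  obtain ⟨D, φ, hφ, hrep⟩ := exists_kummer_rep m g P₀ hP₀ y hy
  have hιφ : ι φ ≠ 0 := (map_ne_zero ι).2 hφ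
  obtain ⟨a, ha, haφ⟩ := hS (ι φ) hιφ
  obtain ⟨c, hc⟩ := IsAlgClosed.exists_pow_nat_eq (SemilinearAut.baseAut g' a * a⁻¹) hm
  refine ⟨D, g • φ * φ⁻¹, algebraMap K F' c, hrep, ?_⟩
  have e : ι (g • φ * φ⁻¹) * algebraMap K F' c ^ m
      = g' • (algebraMap K F' a * ι φ) * (algebraMap K F' a * ι φ)⁻¹ := by
    rw [← map_pow, hc, smul_mul', SemilinearAut.smul_algebraMap, map_mul, map_mul, map_inv₀,
      map_inv₀, mul_inv, hgg']
    ring
  rw [e]
  exact h.red_smul_div haφ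

/-- the Kummer unit attached to a representative. -/
theorem exists_unit_of_isRep {m : ℕ} {x : Pic0 K F} {D : Divisor K F} {f : F} (h : IsRep m x D f) :
    ∃ u : kummerUnits K F m, ((u : Fˣ) : F) = f :=
  ⟨⟨Units.mk0 f (PairAux_ne_zero h), fun P => by
    rw [Units.val_mk0, h.ord_eq P]; exact dvd_mul_right _ _⟩, rfl⟩

/-- two representatives of the same class give the same element of `KV` (`IsRep.exists_eq`; the constant is an `m`-th power). -/
theorem mk_eq_mk_of_isRep {m : ℕ} (hm : 0 < m) {x : Pic0 K F} {D D' : Divisor K F}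
    (u u' : kummerUnits K F m) (h : IsRep m x D ((u : Fˣ) : F)) (h' : IsRep m x D' ((u' : Fˣ) : F)) :
    KV.mk u = KV.mk u' := by
  obtain ⟨v, c, hv, -, he⟩ := h'.exists_eq h
  obtain ⟨d, hd⟩ := IsAlgClosed.exists_pow_nat_eq (c : K) hm
  have hd0 : d ≠ 0 := by
    rintro rfl
    rw [zero_pow hm.ne'] at hd
    exact c.ne_zero hd.symm
  rw [KV.mk_eq_mk_iff]
  refine ⟨Units.mk0 (algebraMap K F d * v) (mul_ne_zero ((map_ne_zero _).2 hd0) hv), ?_⟩
  apply Units.ext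
  rw [Units.val_mul, Units.val_pow_eq_pow_val, Units.val_mk0, he, mul_pow, ← map_pow, hd]
  ring

/-- **Transfer of DR2 to `Pic⁰`.**
`x ∈ KoneP R1 m ⊓ KoneP R2 m`: representatives `(D₁, f₁)`, `(D₂, f₂)`, units `u₁`, `u₂`; `ξ := KV.mk u₁ = KV.mk u₂ ∈ Kone R1 m ∩ Kone R2 m`.
`H ξ`: `KV.mk (φ u₁ * (w u₁) ^ q) = 0` (`KV.semilinear_smul_mk`, `KV.mk_pow`, `KV.mk_mul`), so `φ f₁ * (w f₁) ^ q = h ^ m`
(`KV.mk_eq_zero_iff`); it represents `φ x + q w x` (`IsRep.smul`, `isRep_nsmul`, `IsRep.add`); `eq_zero_of_isRep_pow`. -/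
theorem rel_of_KV (R1 R2 : RedData K F k Fb) {m : ℕ} (hm : 0 < m) (q : ℕ) (φ w : SemilinearAut K F)
    (H : ∀ ξ ∈ Kone R1 m ∩ Kone R2 m, φ • ξ + q • (w • ξ) = 0)
    {x : Pic0 K F} (hx : x ∈ KoneP R1 m ⊓ KoneP R2 m) : φ • x + q • (w • x) = 0 := by
  obtain ⟨⟨D₁, f₁, h₁, hr₁⟩, ⟨D₂, f₂, h₂, hr₂⟩⟩ := hx
  obtain ⟨u₁, rfl⟩ := exists_unit_of_isRep h₁
  obtain ⟨u₂, rfl⟩ := exists_unit_of_isRep h₂
  have hξ : KV.mk u₁ ∈ Kone R1 m ∩ Kone R2 m :=
    ⟨⟨u₁, rfl, hr₁⟩, ⟨u₂, (mk_eq_mk_of_isRep hm u₁ u₂ h₁ h₂).symm, hr₂⟩⟩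
  have h3 := H _ hξ
  rw [KV.semilinear_smul_mk, KV.semilinear_smul_mk, ← KV.mk_pow, ← KV.mk_mul,
    KV.mk_eq_zero_iff] at h3
  obtain ⟨y, hy⟩ := h3
  have h4 : IsRep m (φ • x + q • (w • x)) (φ • D₁ + q • (w • D₁))
      (φ • ((u₁ : Fˣ) : F) * (w • ((u₁ : Fˣ) : F)) ^ q) :=
    (h₁.smul φ).add (isRep_nsmul (h₁.smul w) q)
  have h5 : φ • ((u₁ : Fˣ) : F) * (w • ((u₁ : Fˣ) : F)) ^ q = (y : F) ^ m := by
    rw [← Units.val_pow_eq_pow_val, hy]
    rfl
  rw [h5] at h4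
  exact eq_zero_of_isRep_pow hm.ne' h4

end Fermat.Agent.S15.LocN
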