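import Fermat.Agent.S15.LocN.Weil
import Fermat.Agent.S15.LocN.Tor

/-!
# S15 / LOC-N (block P of report 339), file 3: the toric classes are almost isotropic (abstract form)
-/

set_option autoImplicit false
set_option linter.unusedSectionVars false

namespace Fermat.Agent.S15.LocN

open AlgebraicCurve Fermat.Agent.Lib.RR Fermat.Agent.S19.Weil Fermat.Agent.GAL Fermat.Agent.GAL.RED
  Fermat.Agent.DR.Gal

variable {K F F' k Fb : Type*} [Field K] [IsAlgClosed K] [CharZero K] [Field F] [Field F']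
  [Algebra K F] [Algebra K F'] [Algebra F F'] [IsScalarTower K F F'] [FiniteDimensional F F']
  [Algebra.IsSeparable F F'] [IsFF K F] [IsFF K F'] [Field k] [Field Fb] [Algebra k Fb]

/-- `x ∈ KoneL` ⟹ `π^* x ∈ KoneP`:  `(π^* D + div h, ι f * h ^ m)` represents `π^* x`
(`isRep_pullback`; `h ≠ 0` because the reduction is `1`; `PairAux_mk_eq_mk_iff`, `divOf_mul`, `divOf_pow`). -/
theorem pullback_mem_KoneP {R : RedData K F' k Fb} {m : ℕ} {x : Pic0 K F}
    (hx : x ∈ KoneL (algebraMap F F') R m) : Pic0.pullbackHom F' x ∈ KoneP R m := by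
  obtain ⟨D, f, h, hr, hred⟩ := hx
  have hne : algebraMap F F' f * h ^ m ≠ 0 :=
    R.ne_zero_of_red_ne_zero (by rw [hred]; exact one_ne_zero)
  obtain ⟨h', hh', hpow⟩ : ∃ h' : F', h' ≠ 0 ∧ h' ^ m = h ^ m := by
    by_cases h0 : h = 0
    · refine ⟨1, one_ne_zero, ?_⟩
      have h1 : h ^ m ≠ 0 := right_ne_zero_of_mul hne
      rcases Nat.eq_zero_or_pos m with rfl | hm
      · simp
      · exact absurd (by rw [h0, zero_pow hm.ne']) h1
    · exact ⟨h, h0, rfl⟩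
  have h1 := (isRep_pullback (F' := F') hr).add (isRep_pow m hh')
  rw [add_zero, hpow] at h1
  exact ⟨_, _, h1, hred⟩

/-- **Almost isotropy of the toric part.** -/
theorem weil_pow_of_mem_KoneL (R1 R2 : RedData K F' k Fb) {m q : ℕ} (hm : 0 < m) (hq : 0 < q)
    (hqm : Nat.Coprime q m) (φ w : SemilinearAut K F')
    (hw : ∀ a : K, SemilinearAut.baseAut w a = a)
    (hφ : ∀ ζ : K, ζ ^ m = 1 → SemilinearAut.baseAut φ ζ = ζ ^ q)
    (H : ∀ ξ ∈ Kone R1 m ∩ Kone R2 m, φ • ξ + q • (w • ξ) = 0)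
    {x y : Pic0 K F}
    (hx : x ∈ KoneL (algebraMap F F') R1 m ⊓ KoneL (algebraMap F F') R2 m)
    (hy : y ∈ KoneL (algebraMap F F') R1 m ⊓ KoneL (algebraMap F F') R2 m) :
    weil m x y ^ (Module.finrank F F' * (q - 1)) = 1 := by
  have hx' : Pic0.pullbackHom F' x ∈ KoneP R1 m ⊓ KoneP R2 m :=
    ⟨pullback_mem_KoneP hx.1, pullback_mem_KoneP hx.2⟩
  have hy' : Pic0.pullbackHom F' y ∈ KoneP R1 m ⊓ KoneP R2 m :=
    ⟨pullback_mem_KoneP hy.1, pullback_mem_KoneP hy.2⟩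
  rw [pow_mul, ← weil_pullback (F' := F') (KoneL_le_torsion _ _ _ hx.1) (KoneL_le_torsion _ _ _ hy.1)]
  exact weil_pow_of_frob hq hqm φ w hw hφ (KoneP_le_torsion _ _ hx'.1) (KoneP_le_torsion _ _ hy'.1)
    (rel_of_KV R1 R2 hm q φ w H hx') (rel_of_KV R1 R2 hm q φ w H hy')

end Fermat.Agent.S15.LocN
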