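import Fermat.Agent.S19.Weil.Pairing
import Fermat.Agent.S19.Weil.Proj
import Fermat.Agent.S19.Lvl.PushPull

/-!
# S15 / LOC-N (block P of report 339), file 1: complements on the Weil pairing `S19.Weil.weil`

* `weil_nsmul_left`, `weil_nsmul_right`, `weil_neg_left`, `weil_neg_right`;
* `weil_pow_of_frob` : **abstract isotropy.**  If `φ x = - q w x`, `φ y = - q w y` with `w` a `K`-linear automorphism and `φ` a semilinear
  automorphism acting on `μ_m` by `ζ ↦ ζ ^ q`, `(q, m) = 1`, then `e_m (x, y) ^ (q - 1) = 1`;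
* `weil_pullback` : `e_m (π^* x, π^* y) = e_m (x, y) ^ deg π`.
-/

set_option autoImplicit false
set_option linter.unusedSectionVars false

namespace Fermat.Agent.S15.LocN

open AlgebraicCurve Fermat.Agent.Lib.RR Fermat.Agent.S19.Weil

section one

variable {K F : Type*} [Field K] [IsAlgClosed K] [CharZero K] [Field F] [Algebra K F] [IsFF K F]

theorem weil_nsmul_left {m : ℕ} {x y : Pic0 K F} (hx : x ∈ Pic0.torsion K F m)
    (hy : y ∈ Pic0.torsion K F m) (n : ℕ) : weil m (n • x) y = weil m x y ^ n := by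
  induction n with
  | zero => rw [zero_nsmul, weil_zero_left, pow_zero]
  | succ n ih =>
    rw [succ_nsmul, weil_add_left ((Pic0.torsion K F m).nsmul_mem hx n) hx hy, ih, pow_succ]

theorem weil_nsmul_right {m : ℕ} {x y : Pic0 K F} (hx : x ∈ Pic0.torsion K F m)
    (hy : y ∈ Pic0.torsion K F m) (n : ℕ) : weil m x (n • y) = weil m x y ^ n := by
  rw [weil_swap m (n • y) x, weil_nsmul_left hy hx, weil_swap m y x, inv_pow]

theorem weil_neg_left {m : ℕ} {x y : Pic0 K F} (hx : x ∈ Pic0.torsion K F m)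
    (hy : y ∈ Pic0.torsion K F m) : weil m (-x) y = (weil m x y)⁻¹ := by
  have h := weil_add_left hx ((Pic0.torsion K F m).neg_mem hx) hy
  rw [add_neg_cancel, weil_zero_left] at h
  exact (inv_eq_of_mul_eq_one_right h.symm).symm

theorem weil_neg_right {m : ℕ} {x y : Pic0 K F} (hx : x ∈ Pic0.torsion K F m)
    (hy : y ∈ Pic0.torsion K F m) : weil m x (-y) = (weil m x y)⁻¹ := by
  have h := weil_add_right hx hy ((Pic0.torsion K F m).neg_mem hy)
  rw [add_neg_cancel, weil_zero_right] at h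
  exact (inv_eq_of_mul_eq_one_right h.symm).symm

theorem smul_mem_torsion (g : SemilinearAut K F) {m : ℕ} {x : Pic0 K F}
    (hx : x ∈ Pic0.torsion K F m) : g • x ∈ Pic0.torsion K F m :=
  SemilinearAut.smul_mem_torsion g hx

/-- **Abstract isotropy.**
`z := weil m x y`.  `weil_smul φ` : `weil m (φ x) (φ y) = φ z = z ^ q` (`hφ`, `weil_pow`).
`φ x = - (q • w x)` (`eq_neg_of_add_eq_zero_left`), so by bilinearity
`weil m (φ x) (φ y) = weil m (w x) (w y) ^ (q * q) = z ^ (q * q)` (`weil_smul w`, `hw`).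
Hence `z ^ (q * (q - 1)) = 1`, `z ^ m = 1`, `(q, m) = 1` : `orderOf z ∣ q - 1`. -/
theorem weil_pow_of_frob {m q : ℕ} (hq : 0 < q) (hqm : Nat.Coprime q m) (φ w : SemilinearAut K F)
    (hw : ∀ a : K, SemilinearAut.baseAut w a = a)
    (hφ : ∀ ζ : K, ζ ^ m = 1 → SemilinearAut.baseAut φ ζ = ζ ^ q)
    {x y : Pic0 K F} (hx : x ∈ Pic0.torsion K F m) (hy : y ∈ Pic0.torsion K F m)
    (hφx : φ • x + q • (w • x) = 0) (hφy : φ • y + q • (w • y) = 0) :
    weil m x y ^ (q - 1) = 1 := by
  set z := weil m x y with hz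
  have hzm : z ^ m = 1 := weil_pow m x y
  have hwx := smul_mem_torsion w hx
  have hwy := smul_mem_torsion w hy
  have hqx := (Pic0.torsion K F m).nsmul_mem hwx q
  have hqy := (Pic0.torsion K F m).nsmul_mem hwy q
  have h1 : weil m (φ • x) (φ • y) = z ^ q := by
    rw [weil_smul]
    apply Units.ext
    rw [Units.coe_map, Units.val_pow_eq_pow_val]
    exact hφ _ (by rw [← Units.val_pow_eq_pow_val, hzm, Units.val_one])
  have h2 : weil m (w • x) (w • y) = z := by
    rw [weil_smul]
    apply Units.ext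
    rw [Units.coe_map]
    exact hw _
  have hx' : φ • x = -(q • (w • x)) := eq_neg_of_add_eq_zero_left hφx
  have hy' : φ • y = -(q • (w • y)) := eq_neg_of_add_eq_zero_left hφy
  have h3 : weil m (φ • x) (φ • y) = z ^ (q * q) := by
    rw [hx', hy', weil_neg_left hqx ((Pic0.torsion K F m).neg_mem hqy), weil_neg_right hqx hqy,
      inv_inv, weil_nsmul_left hwx hqy, weil_nsmul_right hwx hwy, h2, ← pow_mul]
  have h4 : z ^ q = z ^ (q * q) := h1.symm.trans h3
  have h5 : z ^ (q * (q - 1)) = 1 := by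
    have e : q * q = q + q * (q - 1) := by
      obtain ⟨q', rfl⟩ : ∃ q', q = q' + 1 := ⟨q - 1, by omega⟩
      simp only [Nat.add_sub_cancel]
      ring
    rw [e, pow_add] at h4
    exact mul_eq_left.mp h4.symm
  have h6 : orderOf z ∣ q * (q - 1) := orderOf_dvd_of_pow_eq_one h5
  have h7 : orderOf z ∣ m := orderOf_dvd_of_pow_eq_one hzm
  have h8 : Nat.Coprime (orderOf z) q := Nat.Coprime.coprime_dvd_left h7 hqm.symm
  exact orderOf_dvd_iff_pow_eq_one.1 (h8.dvd_of_dvd_mul_left h6)

end one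

section two

variable {K F F' : Type*} [Field K] [IsAlgClosed K] [CharZero K] [Field F] [Field F'] [Algebra K F]
  [Algebra K F'] [Algebra F F'] [IsScalarTower K F F'] [FiniteDimensional F F']
  [Algebra.IsSeparable F F'] [IsFF K F] [IsFF K F']

/-- `Pic0.pullbackHom_mk`, `Pic0.coe_pullbackDegZeroHom`, `divOf_algebraMap_eq_pullback`, `map_nsmul`. -/
theorem isRep_pullback {m : ℕ} {x : Pic0 K F} {D : Divisor K F} {f : F} (h : IsRep m x D f) :
    IsRep m (Pic0.pullbackHom F' x) (Divisor.pullback F' D) (algebraMap F F' f) := by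
  obtain ⟨hD, rfl, hf, hdiv⟩ := h
  refine ⟨(Pic0.pullbackDegZeroHom F' ⟨D, hD⟩).2, ?_, (map_ne_zero _).2 hf, ?_⟩
  · rw [Pic0.pullbackHom_mk]
    rfl
  · rw [divOf_algebraMap_eq_pullback, hdiv, map_nsmul]

/-- `e_m (π^* x, π^* y) = e_m (x, y) ^ deg π`.
Representatives `(D, f)`, `(E, g)` with disjoint supports (as in `exists_isWeilValue`); `isRep_pullback`; the pull-backs are disjoint
(`Divisor.pullback_apply`); `weil_eq` twice; `evD_algebraMap_eq`, `Lvl.mapRestrict_pullback`, `evD_nsmul`, `div_pow`. -/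
theorem weil_pullback {m : ℕ} {x y : Pic0 K F} (hx : x ∈ Pic0.torsion K F m)
    (hy : y ∈ Pic0.torsion K F m) :
    weil m (Pic0.pullbackHom F' x) (Pic0.pullbackHom F' y) = weil m x y ^ Module.finrank F F' := by
  obtain ⟨D, f, h, -⟩ := exists_isRep hx ∅
  obtain ⟨E, g, hE, hav⟩ := exists_isRep hy D.support
  have hd : DisjD D E := fun P => by
    by_cases hP : P ∈ D.support
    · exact Or.inr (hav P hP)
    · exact Or.inl (Finsupp.notMem_support_iff.mp hP)
  have hd' : DisjD (Divisor.pullback F' D) (Divisor.pullback F' E) := fun w => by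
    rw [Divisor.pullback_apply, Divisor.pullback_apply]
    rcases hd (w.restrict F) with h0 | h0
    · exact Or.inl (by rw [h0, mul_zero])
    · exact Or.inr (by rw [h0, mul_zero])
  rw [weil_eq (isRep_pullback h) (isRep_pullback hE) hd', weil_eq h hE hd, evD_algebraMap_eq,
    evD_algebraMap_eq, Fermat.Agent.S19.Lvl.mapRestrict_pullback,
    Fermat.Agent.S19.Lvl.mapRestrict_pullback, evD_nsmul, evD_nsmul, div_pow]

end two

end Fermat.Agent.S15.LocN
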